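/-
S55 / block LOC-C : SKELETON 1.  ALL its nodes (C01-C08) are proved and on main; this file is now
only the list of the final files.  (`cyclicCover_coset` of C06 is now called
`cyclicCover_coset_of_normal`.)
-/
import Fermat.Agent.S55.Loc.Coh.HypDefs
import Fermat.Agent.S55.Loc.Coh.CupApi
import Fermat.Agent.S55.Loc.Coh.QZ
import Fermat.Agent.S55.Loc.Coh.CupRes
import Fermat.Agent.S55.Loc.Coh.FixNormA
import Fermat.Agent.S55.Loc.Coh.FixNorm
import Fermat.Agent.S55.Loc.Coh.ThetaCup
import Fermat.Agent.S55.Loc.Coh.CosetCover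
import Fermat.Agent.S55.Loc.Coh.CupKer
import Fermat.Agent.S55.Loc.Coh.SylowTower
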