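/-
S55 / block LOC-C : SKELETON 2.  ALL its nodes (L01-L07) are proved and on main; this file is now
only the list of the final files.
-/
import Fermat.Agent.S55.Loc.WIP.Skeleton1
import Fermat.Agent.S55.Loc.Coh.W
import Fermat.Agent.S55.Loc.Coh.T1
import Fermat.Agent.S55.Loc.Coh.Step
import Fermat.Agent.S55.Loc.Coh.T2
import Fermat.Agent.S55.Loc.Coh.Inv
import Fermat.Agent.S55.Loc.Coh.InvX
import Fermat.Agent.S55.Loc.Coh.H3
import Fermat.Agent.S55.Loc.Coh.Kummer
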