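/-
S55 / block LOC-C : SKELETON 3.  ALL its nodes are proved and on main (L08 = `Loc/Coh/L6.lean`,
P01 = `Loc/Pkg.lean`); this file is now only the list of the final files.
-/
import Fermat.Agent.S55.Loc.WIP.Skeleton2
import Fermat.Agent.S55.Loc.PkgDefs
import Fermat.Agent.S55.Loc.Coh.L6
import Fermat.Agent.S55.Loc.Pkg
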